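import Mathlib.NumberTheory.Multiplicity
import Mathlib.RingTheory.Int.Basic
import Mathlib.FieldTheory.Finite.Basic
import Mathlib.Tactic

set_option autoImplicit false

/-! Case I of Fermat's Last Theorem for exponents 5, 7, 11, 13 via Sophie Germain's theorem. -/

namespace Fermat.Agent.Cyclo

open Finset

/-- `φ(y,z) = (y^p + z^p)/(y+z)` -/
def sgPhi (p : ℕ) (y z : ℤ) : ℤ := ∑ i ∈ range p, y ^ i * (-z) ^ (p - 1 - i)

lemma sgPhi_mul {p : ℕ} (hodd : Odd p) (y z : ℤ) : (y + z) * sgPhi p y z = y ^ p + z ^ p := by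
  have h := (Commute.all y (-z)).geom_sum₂_mul p
  rw [hodd.neg_pow, sub_neg_eq_add, sub_neg_eq_add] at h
  rw [sgPhi, mul_comm]; exact h

lemma dvd_sgPhi_iff {p : ℕ} {y z r : ℤ} (h : r ∣ y + z) :
    r ∣ sgPhi p y z ↔ r ∣ (p : ℤ) * y ^ (p - 1) := by
  rw [sgPhi]
  exact dvd_geom_sum₂_iff_of_dvd_sub' (by simpa using h)

lemma sg_factor {p : ℕ} (hp : p.Prime) (hodd : Odd p) {x y z : ℤ} (hpx : ¬ (p : ℤ) ∣ x)
    (hyz : IsCoprime y z) (h : x ^ p + y ^ p + z ^ p = 0) :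
    ∃ a α : ℤ, y + z = a ^ p ∧ sgPhi p y z = α ^ p ∧ x = -(a * α) := by
  have hmul : (y + z) * sgPhi p y z = (-x) ^ p := by
    rw [sgPhi_mul hodd, hodd.neg_pow]; linear_combination h
  have hcop : IsCoprime (y + z) (sgPhi p y z) := by
    rw [Int.isCoprime_iff_gcd_eq_one]
    by_contra hne
    obtain ⟨r, hr, hrd⟩ := Nat.exists_prime_and_dvd hne
    have hr' : Prime (r : ℤ) := Nat.prime_iff_prime_int.1 hr
    have h1 : (r : ℤ) ∣ y + z := (Int.natCast_dvd_natCast.2 hrd).trans (Int.gcd_dvd_left ..)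
    have h2 : (r : ℤ) ∣ sgPhi p y z := (Int.natCast_dvd_natCast.2 hrd).trans (Int.gcd_dvd_right ..)
    rw [dvd_sgPhi_iff h1] at h2
    rcases hr'.dvd_or_dvd h2 with h3 | h3
    · have hrp : r = p := (Nat.prime_dvd_prime_iff_eq hr hp).1 (Int.natCast_dvd_natCast.1 h3)
      subst hrp
      apply hpx
      have : (r : ℤ) ∣ (-x) ^ r := by rw [← hmul]; exact dvd_mul_of_dvd_left h1 _
      exact (dvd_neg.1 (hr'.dvd_of_dvd_pow this))
    · have hy : (r : ℤ) ∣ y := hr'.dvd_of_dvd_pow h3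
      have hz : (r : ℤ) ∣ z := (dvd_add_right hy).1 h1
      exact hr'.not_isUnit (hyz.isUnit_of_dvd' hy hz)
  obtain ⟨⟨a, ha⟩, ⟨α, hα⟩⟩ := Int.eq_pow_of_mul_eq_pow_odd hcop hodd hmul
  refine ⟨a, α, ha, hα, ?_⟩
  have : (a * α) ^ p = (-x) ^ p := by rw [mul_pow, ← ha, ← hα, hmul]
  have := hodd.strictMono_pow.injective this
  rw [this]; ring

/-- Sophie Germain: main step, assuming `q ∣ x`. -/
lemma sg_main {p q : ℕ} (hp : p.Prime) (hodd : Odd p) (hq : q.Prime)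
    (hA : ∀ x y z : ℤ, (q : ℤ) ∣ x ^ p + y ^ p + z ^ p → (q : ℤ) ∣ x ∨ (q : ℤ) ∣ y ∨ (q : ℤ) ∣ z)
    (hB : ∀ t s : ℤ, (q : ℤ) ∣ t ^ p - p * s ^ p → (q : ℤ) ∣ s) (hq2 : q ≠ 2)
    {x y z : ℤ} (hpx : ¬ (p : ℤ) ∣ x) (hpy : ¬ (p : ℤ) ∣ y) (hpz : ¬ (p : ℤ) ∣ z)
    (hxy : IsCoprime x y) (hyz : IsCoprime y z) (hxz : IsCoprime x z)
    (h : x ^ p + y ^ p + z ^ p = 0) (hqx : (q : ℤ) ∣ x) : False := by
  have hq' : Prime (q : ℤ) := Nat.prime_iff_prime_int.1 hq
  obtain ⟨a, α, ha, hα, hx⟩ := sg_factor hp hodd hpx hyz h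
  obtain ⟨b, β, hb, hβ, hy⟩ := sg_factor hp hodd hpy hxz.symm (x := y) (y := z) (z := x)
    (by linear_combination h)
  obtain ⟨c, γ, hc, hγ, hz⟩ := sg_factor hp hodd hpz hxy (x := z) (y := x) (z := y)
    (by linear_combination h)
  have hnot : ∀ w : ℤ, IsCoprime x w → ¬ (q : ℤ) ∣ w := fun w hw hqw =>
    hq'.not_isUnit (hw.isUnit_of_dvd' hqx hqw)
  have h2x : (q : ℤ) ∣ b ^ p + c ^ p + (-a) ^ p := by
    rw [hodd.neg_pow, ← ha, ← hb, ← hc]
    have : z + x + (x + y) + -(y + z) = 2 * x := by ring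
    rw [this]; exact dvd_mul_of_dvd_right hqx _
  have hqa : (q : ℤ) ∣ a := by
    rcases hA _ _ _ h2x with h1 | h1 | h1
    · exact absurd (by rw [hy]; exact (dvd_mul_of_dvd_left h1 _).neg_right) (hnot y hxy)
    · exact absurd (by rw [hz]; exact (dvd_mul_of_dvd_left h1 _).neg_right) (hnot z hxz)
    · exact dvd_neg.1 h1
  have hyz' : (q : ℤ) ∣ y + z := by rw [ha]; exact dvd_pow hqa hp.ne_zero
  -- `α ^ p ≡ p y ^ (p-1)` mod q
  have h3 : (q : ℤ) ∣ α ^ p - p * y ^ (p - 1) := by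
    rw [← hα, sgPhi]
    have hcong : ∀ i ∈ range p, y ^ i * (-z) ^ (p - 1 - i) ≡ y ^ (p - 1) [ZMOD q] := by
      intro i hi
      have hi' : i ≤ p - 1 := by have := mem_range.1 hi; omega
      have hz' : -z ≡ y [ZMOD q] := by
        rw [Int.modEq_iff_dvd]; simpa [sub_neg_eq_add] using hyz'
      have := (Int.ModEq.refl (y ^ i)).mul (hz'.pow (p - 1 - i))
      rwa [← pow_add, Nat.add_sub_cancel' hi'] at this
    have hsum : (q : ℤ) ∣ ∑ i ∈ range p, (y ^ i * (-z) ^ (p - 1 - i) - y ^ (p - 1)) :=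
      dvd_sum fun i hi => Int.modEq_iff_dvd.1 (hcong i hi).symm
    rw [sum_sub_distrib, sum_const, card_range, nsmul_eq_mul] at hsum
    exact hsum
  -- `γ ^ p = φ(x,y) ≡ y ^ (p-1)` mod q
  have h4 : (q : ℤ) ∣ γ ^ p - y ^ (p - 1) := by
    have hp1 : p = (p - 1) + 1 := by have := hp.pos; omega
    have hqy : ¬ (q : ℤ) ∣ y := hnot y hxy
    have h5 : (x + y) * γ ^ p = x ^ p + y ^ p := by rw [← hγ]; exact sgPhi_mul hodd x y
    have h6 : (q : ℤ) ∣ y * (γ ^ p - y ^ (p - 1)) := by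
      have : y * (γ ^ p - y ^ (p - 1)) = x ^ p - x * γ ^ p := by
        have h7 : y * y ^ (p - 1) = y ^ p := by conv_rhs => rw [hp1, pow_succ']
        rw [mul_sub, h7]; linear_combination h5
      rw [this]
      exact dvd_sub (dvd_pow hqx hp.ne_zero) (dvd_mul_of_dvd_left hqx _)
    exact (hq'.dvd_or_dvd h6).resolve_left hqy
  have h5 : (q : ℤ) ∣ α ^ p - p * γ ^ p := by
    have : α ^ p - p * γ ^ p = (α ^ p - p * y ^ (p - 1)) - p * (γ ^ p - y ^ (p - 1)) := by ring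
    rw [this]; exact dvd_sub h3 (dvd_mul_of_dvd_right h4 _)
  have h6 := hB _ _ h5
  exact hnot z hxz (by rw [hz]; exact (dvd_mul_of_dvd_right h6 _).neg_right)

/-- Sophie Germain's theorem. -/
theorem sophieGermain {p q : ℕ} (hp : p.Prime) (hodd : Odd p) (hq : q.Prime)
    (hA : ∀ x y z : ℤ, (q : ℤ) ∣ x ^ p + y ^ p + z ^ p → (q : ℤ) ∣ x ∨ (q : ℤ) ∣ y ∨ (q : ℤ) ∣ z)
    (hB : ∀ t s : ℤ, (q : ℤ) ∣ t ^ p - p * s ^ p → (q : ℤ) ∣ s) (hq2 : q ≠ 2)
    {x y z : ℤ} (hxy : IsCoprime x y) (hyz : IsCoprime y z) (hxz : IsCoprime x z)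
    (h : x ^ p + y ^ p + z ^ p = 0) : (p : ℤ) ∣ x * y * z := by
  by_contra hne
  have hpx : ¬ (p : ℤ) ∣ x := fun h => hne (by rw [mul_assoc]; exact dvd_mul_of_dvd_left h _)
  have hpy : ¬ (p : ℤ) ∣ y := fun h => hne (dvd_mul_of_dvd_left (dvd_mul_of_dvd_right h _) _)
  have hpz : ¬ (p : ℤ) ∣ z := fun h => hne (dvd_mul_of_dvd_right h _)
  have h0 : (q : ℤ) ∣ x ^ p + y ^ p + z ^ p := by rw [h]; exact dvd_zero _
  rcases hA _ _ _ h0 with h1 | h1 | h1
  · exact sg_main hp hodd hq hA hB hq2 hpx hpy hpz hxy hyz hxz h h1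
  · exact sg_main hp hodd hq hA hB hq2 hpy hpz hpx hyz hxz.symm hxy.symm
      (by linear_combination h) h1
  · exact sg_main hp hodd hq hA hB hq2 hpz hpx hpy hxz.symm hxy hyz.symm
      (by linear_combination h) h1

/-- decidable form of the hypotheses -/
theorem sophieGermain' {p q : ℕ} (hp : p.Prime) (hodd : Odd p) (hq : q.Prime) (hq2 : q ≠ 2)
    (hA : ∀ u v : ZMod q, 1 + u ^ p + v ^ p = 0 → u = 0 ∨ v = 0)
    (hB : ∀ t : ZMod q, t ^ p ≠ p)
    {x y z : ℤ} (hxy : IsCoprime x y) (hyz : IsCoprime y z) (hxz : IsCoprime x z)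
    (h : x ^ p + y ^ p + z ^ p = 0) : (p : ℤ) ∣ x * y * z := by
  have : Fact q.Prime := ⟨hq⟩
  refine sophieGermain hp hodd hq ?_ ?_ hq2 hxy hyz hxz h
  · intro x y z hd
    simp only [← ZMod.intCast_zmod_eq_zero_iff_dvd] at hd ⊢
    push_cast at hd
    by_contra hne
    push Not at hne
    obtain ⟨hx, hy, hz⟩ := hne
    have : 1 + ((y : ZMod q) / x) ^ p + ((z : ZMod q) / x) ^ p = 0 := by
      rw [div_pow, div_pow]
      have hxp : (x : ZMod q) ^ p ≠ 0 := pow_ne_zero _ hx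
      field_simp
      rw [mul_zero]; exact hd
    rcases hA _ _ this with h1 | h1
    · rcases div_eq_zero_iff.1 h1 with h2 | h2
      · exact hy h2
      · exact hx h2
    · rcases div_eq_zero_iff.1 h1 with h2 | h2
      · exact hz h2
      · exact hx h2
  · intro t s hd
    simp only [← ZMod.intCast_zmod_eq_zero_iff_dvd] at hd ⊢
    push_cast at hd
    by_contra hs
    apply hB ((t : ZMod q) / s)
    rw [div_pow, div_eq_iff (pow_ne_zero _ hs)]
    linear_combination hd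

private lemma caseI_aux (p q : ℕ) (hp : p.Prime) (hodd : Odd p) (hq : q.Prime) (hq2 : q ≠ 2)
    (hA : ∀ u v : ZMod q, 1 + u ^ p + v ^ p = 0 → u = 0 ∨ v = 0)
    (hB : ∀ t : ZMod q, t ^ p ≠ p)
    (a b c : ℤ) (hab : IsCoprime a b) (h : a ^ p + b ^ p = c ^ p) : (p : ℤ) ∣ a * b * c := by
  have hac : IsCoprime a c := by
    have h1 : IsCoprime (a ^ p) (b ^ p) := hab.pow
    have h2 : IsCoprime (a ^ p) (c ^ p) := by
      rw [← h]
      exact (IsCoprime.mul_add_left_right_iff (z := 1)).2 h1 |> fun h => by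
        simpa using h
    exact (IsCoprime.pow_iff hp.pos hp.pos).1 h2
  have hbc : IsCoprime b c := by
    have h1 : IsCoprime (b ^ p) (a ^ p) := hab.symm.pow
    have h2 : IsCoprime (b ^ p) (c ^ p) := by
      rw [← h, add_comm]
      exact (IsCoprime.mul_add_left_right_iff (z := 1)).2 h1 |> fun h => by
        simpa using h
    exact (IsCoprime.pow_iff hp.pos hp.pos).1 h2
  have := sophieGermain' hp hodd hq hq2 hA hB (x := a) (y := b) (z := -c) hab hbc.neg_right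
    hac.neg_right (by rw [hodd.neg_pow]; linear_combination h)
  rw [mul_neg, dvd_neg] at this
  exact this

theorem caseI_five (a b c : ℤ) (hab : IsCoprime a b) (h : a ^ 5 + b ^ 5 = c ^ 5) :
    (5 : ℤ) ∣ a * b * c :=
  caseI_aux 5 11 (by norm_num) (by decide) (by norm_num) (by norm_num) (by decide +kernel)
    (by decide +kernel) a b c hab h

theorem caseI_seven (a b c : ℤ) (hab : IsCoprime a b) (h : a ^ 7 + b ^ 7 = c ^ 7) :
    (7 : ℤ) ∣ a * b * c :=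
  caseI_aux 7 29 (by norm_num) (by decide) (by norm_num) (by norm_num) (by decide +kernel)
    (by decide +kernel) a b c hab h

theorem caseI_eleven (a b c : ℤ) (hab : IsCoprime a b) (h : a ^ 11 + b ^ 11 = c ^ 11) :
    (11 : ℤ) ∣ a * b * c :=
  caseI_aux 11 23 (by norm_num) (by decide) (by norm_num) (by norm_num) (by decide +kernel)
    (by decide +kernel) a b c hab h

theorem caseI_thirteen (a b c : ℤ) (hab : IsCoprime a b) (h : a ^ 13 + b ^ 13 = c ^ 13) :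
    (13 : ℤ) ∣ a * b * c :=
  caseI_aux 13 53 (by norm_num) (by decide) (by norm_num) (by norm_num) (by decide +kernel)
    (by decide +kernel) a b c hab h

end Fermat.Agent.Cyclo
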