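import Fermat.Agent.Cyclo.Principal
import Mathlib.Algebra.Polynomial.SpecificDegree

set_option autoImplicit false

namespace Fermat.Agent.Cyclo

open NumberField Polynomial Ideal RingOfIntegers NumberField.Ideal

lemma cert_11_23 (K : Type*) [Field K] [NumberField K] [IsCyclotomicExtension {11} ℚ K] :
    ∃ P ∈ primesOver (span {(23 : ℤ)}) (𝓞 K), Submodule.IsPrincipal P := by
  have : Fact (Nat.Prime 11) := ⟨by norm_num⟩
  have : Fact (Nat.Prime 23) := ⟨by norm_num⟩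
  have h0 := theta_geom (p := 11) K
  simp only [Finset.sum_range_succ, Finset.sum_range_zero] at h0
  set θ := theta 11 K with hθ
  refine exists_principal_of_cert_linear (p := 11) K 23 4 ?_
    (1+θ+θ^3) (-2-14*θ-17*θ^2-12*θ^3-5*θ^4-9*θ^5-10*θ^6-16*θ^7-6*θ^8-15*θ^9) (1+3*θ+3*θ^2+2*θ^3+θ^4+2*θ^5+2*θ^6+3*θ^7+θ^8+3*θ^9) (3) (17+4*θ+θ^2) ?_ ?_ ?_
  · rw [cyclotomic_prime, eval_geom_sum, ZMod.intCast_zmod_eq_zero_iff_dvd]
    decide +kernel
  · push_cast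
    linear_combination (-25+9*θ-15*θ^2) * h0
  · rw [← hθ]; push_cast
    linear_combination (5-2*θ+3*θ^2) * h0
  · rw [← hθ]; push_cast
    ring


lemma cert_13_53 (K : Type*) [Field K] [NumberField K] [IsCyclotomicExtension {13} ℚ K] :
    ∃ P ∈ primesOver (span {(53 : ℤ)}) (𝓞 K), Submodule.IsPrincipal P := by
  have : Fact (Nat.Prime 13) := ⟨by norm_num⟩
  have : Fact (Nat.Prime 53) := ⟨by norm_num⟩
  have h0 := theta_geom (p := 13) K
  simp only [Finset.sum_range_succ, Finset.sum_range_zero] at h0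
  set θ := theta 13 K with hθ
  refine exists_principal_of_cert_linear (p := 13) K 53 36 ?_
    (1+θ+θ^3) (1-24*θ-35*θ^2-25*θ^3-10*θ^4-14*θ^5-20*θ^6-29*θ^7-16*θ^8-23*θ^9-7*θ^10-36*θ^11) (17*θ+24*θ^2+17*θ^3+7*θ^4+10*θ^5+14*θ^6+20*θ^7+11*θ^8+16*θ^9+5*θ^10+25*θ^11) (881) (1297+36*θ+θ^2) ?_ ?_ ?_
  · rw [cyclotomic_prime, eval_geom_sum, ZMod.intCast_zmod_eq_zero_iff_dvd]
    decide +kernel
  · push_cast
    linear_combination (-52+29*θ-36*θ^2) * h0
  · rw [← hθ]; push_cast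
    linear_combination (36-20*θ+25*θ^2) * h0
  · rw [← hθ]; push_cast
    ring


lemma cert_13_131 (K : Type*) [Field K] [NumberField K] [IsCyclotomicExtension {13} ℚ K] :
    ∃ P ∈ primesOver (span {(131 : ℤ)}) (𝓞 K), Submodule.IsPrincipal P := by
  have : Fact (Nat.Prime 13) := ⟨by norm_num⟩
  have : Fact (Nat.Prime 131) := ⟨by norm_num⟩
  have h0 := theta_geom (p := 13) K
  simp only [Finset.sum_range_succ, Finset.sum_range_zero] at h0
  set θ := theta 13 K with hθ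
  refine exists_principal_of_cert_linear (p := 13) K 131 80 ?_
    (1-θ-θ^3) (111+78*θ+17*θ^2+67*θ^3+84*θ^4+40*θ^5+46*θ^6+69*θ^7+48*θ^8+33*θ^9+41*θ^10+28*θ^11) (-68-47*θ-10*θ^2-41*θ^3-51*θ^4-24*θ^5-28*θ^6-42*θ^7-29*θ^8-20*θ^9-25*θ^10-17*θ^11) (-3909) (-6401-80*θ-θ^2) ?_ ?_ ?_
  · rw [cyclotomic_prime, eval_geom_sum, ZMod.intCast_zmod_eq_zero_iff_dvd]
    decide +kernel
  · push_cast
    linear_combination (-20-13*θ-28*θ^2) * h0
  · rw [← hθ]; push_cast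
    linear_combination (12+8*θ+17*θ^2) * h0
  · rw [← hθ]; push_cast
    ring


lemma cert_13_79 (K : Type*) [Field K] [NumberField K] [IsCyclotomicExtension {13} ℚ K] :
    ∃ P ∈ primesOver (span {(79 : ℤ)}) (𝓞 K), Submodule.IsPrincipal P := by
  have : Fact (Nat.Prime 13) := ⟨by norm_num⟩
  have : Fact (Nat.Prime 79) := ⟨by norm_num⟩
  have h0 := theta_geom (p := 13) K
  simp only [Finset.sum_range_succ, Finset.sum_range_zero] at h0
  set θ := theta 13 K with hθ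
  refine exists_principal_of_cert_linear (p := 13) K 79 64 ?_
    (1+θ-θ^4) (24-25*θ-27*θ^2+10*θ^3-3*θ^4-39*θ^5-5*θ^6-2*θ^7-18*θ^8-38*θ^9+16*θ^10-35*θ^11) (-19+21*θ+22*θ^2-8*θ^3+3*θ^4+32*θ^5+4*θ^6+2*θ^7+15*θ^8+31*θ^9-13*θ^10+29*θ^11) (-212369) (-262143-4096*θ-64*θ^2-θ^3) ?_ ?_ ?_
  · rw [cyclotomic_prime, eval_geom_sum, ZMod.intCast_zmod_eq_zero_iff_dvd]
    decide +kernel
  · push_cast
    linear_combination (-55+54*θ-51*θ^2+35*θ^3) * h0
  · rw [← hθ]; push_cast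
    linear_combination (45-44*θ+42*θ^2-29*θ^3) * h0
  · rw [← hθ]; push_cast
    ring


lemma cert_13_157 (K : Type*) [Field K] [NumberField K] [IsCyclotomicExtension {13} ℚ K] :
    ∃ P ∈ primesOver (span {(157 : ℤ)}) (𝓞 K), Submodule.IsPrincipal P := by
  have : Fact (Nat.Prime 13) := ⟨by norm_num⟩
  have : Fact (Nat.Prime 157) := ⟨by norm_num⟩
  have h0 := theta_geom (p := 13) K
  simp only [Finset.sum_range_succ, Finset.sum_range_zero] at h0
  set θ := theta 13 K with hθ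
  refine exists_principal_of_cert_linear (p := 13) K 157 75 ?_
    (1-θ+θ^2+θ^4) (89+86*θ+42*θ^2+77*θ^3+67*θ^4+25*θ^5+37*θ^6+56*θ^7+73*θ^8+113*θ^9+124*θ^10+76*θ^11) (-43-41*θ-20*θ^2-37*θ^3-32*θ^4-12*θ^5-18*θ^6-27*θ^7-35*θ^8-54*θ^9-59*θ^10-36*θ^11) (201568) (421949+5626*θ+75*θ^2+θ^3) ?_ ?_ ?_
  · rw [cyclotomic_prime, eval_geom_sum, ZMod.intCast_zmod_eq_zero_iff_dvd]
    decide +kernel
  · push_cast
    linear_combination (-68+65*θ+48*θ^2+76*θ^3) * h0
  · rw [← hθ]; push_cast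
    linear_combination (32-31*θ-23*θ^2-36*θ^3) * h0
  · rw [← hθ]; push_cast
    ring

lemma cert_13_3 (K : Type*) [Field K] [NumberField K] [IsCyclotomicExtension {13} ℚ K] :
    ∃ P ∈ primesOver (span {(3 : ℤ)}) (𝓞 K), Submodule.IsPrincipal P := by
  have : Fact (Nat.Prime 13) := ⟨by norm_num⟩
  have : Fact (Nat.Prime 3) := ⟨by norm_num⟩
  have h0 := theta_geom (p := 13) K
  simp only [Finset.sum_range_succ, Finset.sum_range_zero] at h0
  set θ := theta 13 K with hθ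
  have hdeg : (X ^ 3 - X - 1 : ℤ[X]).natDegree = 3 := by compute_degree!
  have hmonic : (X ^ 3 - X - 1 : ℤ[X]).Monic := by
    rw [Monic, Polynomial.leadingCoeff, hdeg]
    simp [coeff_X, coeff_one]
  have hae : aeval θ (X ^ 3 - X - 1 : ℤ[X]) = θ ^ 3 - θ - 1 := by simp
  have hmapdeg : ((X ^ 3 - X - 1 : ℤ[X]).map (Int.castRingHom (ZMod 3))).natDegree = 3 := by
    rw [hmonic.natDegree_map, hdeg]
  refine exists_principal_of_cert (p := 13) K 3 (X ^ 3 - X - 1) hmonic ?_ ?_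
    (1+θ-θ^3) (-1-θ^2-θ^3-2*θ^5-θ^7-2*θ^8+θ^9-3*θ^10) (-1) 0 (-1) ?_ ?_ ?_
  · have hm3 : ((X ^ 3 - X - 1 : ℤ[X]).map (Int.castRingHom (ZMod 3))).Monic := hmonic.map _
    rw [Polynomial.Monic.irreducible_iff_roots_eq_zero_of_degree_le_three hm3
      (by rw [hmapdeg]; norm_num) (by rw [hmapdeg])]
    rw [Multiset.eq_zero_iff_forall_notMem]
    intro a ha
    rw [mem_roots (hmonic.map _).ne_zero, IsRoot, eval_map] at ha
    simp at ha
  · have : (cyclotomic 13 ℤ) = (X ^ 3 - X - 1) * (X^9 + X^8 - X^7 + X^5 - X^3 - X^2 - 1)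
      + C 3 * (X^5 + X^6 + X^9 + X^10) := by
      rw [show (C 3 : ℤ[X]) = 3 from rfl]
      rw [cyclotomic_prime]
      simp only [Finset.sum_range_succ, Finset.sum_range_zero]
      ring
    rw [this, Polynomial.map_add, Polynomial.map_mul, Polynomial.map_mul, Polynomial.map_C,
      show (Int.castRingHom (ZMod 3)) 3 = 0 from rfl, C_0, zero_mul, add_zero]
    exact dvd_mul_right _ _
  · push_cast
    linear_combination (-4+3*θ) * h0
  · rw [← hθ, hae]; ring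
  · rw [← hθ, hae]; ring
end Fermat.Agent.Cyclo
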