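import Fermat.Agent.Cyclo.PID

set_option autoImplicit false

namespace Fermat.Agent.Cyclo

open NumberField Polynomial Ideal RingOfIntegers NumberField.Ideal InfinitePlace Module
open scoped Nat Real

lemma lt_pow_orderOf (p q B f : ℕ) [hp : Fact p.Prime] (hq : q.Prime) (hqp : q ≠ p)
    (h' : ∀ k, 0 < k → k < f → q ^ k % p ≠ 1) (hB : B < q ^ f) :
    B < q ^ orderOf (q : ZMod p) := by
  have h : ∀ k, 0 < k → k < f → (q : ZMod p) ^ k ≠ 1 := by
    intro k hk hkf he
    apply h' k hk hkf
    have h1 : ((q ^ k : ℕ) : ZMod p) = ((1 : ℕ) : ZMod p) := by push_cast; exact he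
    rw [ZMod.natCast_eq_natCast_iff] at h1
    rw [Nat.ModEq] at h1; rw [h1, Nat.mod_eq_of_lt hp.out.one_lt]
  have hne : (q : ZMod p) ≠ 0 := by
    rw [Ne, ZMod.natCast_eq_zero_iff]
    intro hd
    exact hqp ((Nat.prime_dvd_prime_iff_eq hp.out hq).1 hd).symm
  have hpos : 0 < orderOf (q : ZMod p) := by
    rw [orderOf_pos_iff, isOfFinOrder_iff_pow_eq_one]
    exact ⟨p - 1, Nat.sub_pos_of_lt hp.out.one_lt, ZMod.pow_card_sub_one_eq_one hne⟩
  have hle : f ≤ orderOf (q : ZMod p) := by
    by_contra hlt
    exact h _ hpos (not_le.1 hlt) (pow_orderOf_eq_one _)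
  exact hB.trans_le (Nat.pow_le_pow_right hq.pos hle)

theorem seven_pid (K : Type*) [Field K] [NumberField K] [IsCyclotomicExtension {7} ℚ K] :
    IsPrincipalIdealRing (𝓞 K) := by
  have : Fact (Nat.Prime 7) := ⟨by norm_num⟩
  refine pid_of_cert 7 K 4 (minkowski_floor_le 7 K 6 3 4 rfl rfl ?_) ?_
  · norm_num [Nat.factorial]
  · intro q hq hqB hq7
    right
    have := hq.two_le
    interval_cases q
    · refine lt_pow_orderOf 7 2 4 3 hq hq7 ?_ (by norm_num)
      intro k hk hk'
      interval_cases k <;> norm_num
    · refine lt_pow_orderOf 7 3 4 2 hq hq7 ?_ (by norm_num)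
      intro k hk hk'
      interval_cases k; norm_num
    · norm_num at hq

theorem eleven_pid (K : Type*) [Field K] [NumberField K] [IsCyclotomicExtension {11} ℚ K] :
    IsPrincipalIdealRing (𝓞 K) := by
  have : Fact (Nat.Prime 11) := ⟨by norm_num⟩
  refine pid_of_cert 11 K 58 (minkowski_floor_le 11 K 10 5 58 rfl rfl ?_) ?_
  · norm_num [Nat.factorial]
  · intro q hq hqB hq11
    have h2 := hq.two_le
    by_cases h8 : q < 8
    · right
      interval_cases q
      · refine lt_pow_orderOf 11 2 58 6 hq hq11 ?_ (by norm_num)
        intro k hk hk'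
        interval_cases k <;> norm_num
      · refine lt_pow_orderOf 11 3 58 4 hq hq11 ?_ (by norm_num)
        intro k hk hk'
        interval_cases k <;> norm_num
      · norm_num at hq
      · refine lt_pow_orderOf 11 5 58 3 hq hq11 ?_ (by norm_num)
        intro k hk hk'
        interval_cases k <;> norm_num
      · norm_num at hq
      · refine lt_pow_orderOf 11 7 58 3 hq hq11 ?_ (by norm_num)
        intro k hk hk'
        interval_cases k <;> norm_num
    · by_cases h1 : q % 11 = 1
      · obtain ⟨k, hk⟩ : ∃ k, q = 11 * k + 1 := ⟨q / 11, by omega⟩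
        have hk5 : k ≤ 5 := by omega
        subst hk
        interval_cases k <;> first
          | (exfalso; revert hq; norm_num; done)
          | exact Or.inl (cert_11_23 K)
      · right
        refine lt_pow_orderOf 11 q 58 2 hq hq11 ?_ (by nlinarith)
        intro k hk hk'
        have hk1 : k = 1 := by omega
        subst hk1
        rwa [pow_one]

theorem thirteen_pid (K : Type*) [Field K] [NumberField K] [IsCyclotomicExtension {13} ℚ K] :
    IsPrincipalIdealRing (𝓞 K) := by
  have : Fact (Nat.Prime 13) := ⟨by norm_num⟩
  refine pid_of_cert 13 K 306 (minkowski_floor_le 13 K 12 6 306 rfl rfl ?_) ?_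
  · norm_num [Nat.factorial]
  · intro q hq hqB hq13
    have h2 := hq.two_le
    by_cases h8 : q < 18
    · interval_cases q
      · right
        refine lt_pow_orderOf 13 2 306 9 hq hq13 ?_ (by norm_num)
        intro k hk hk'
        interval_cases k <;> norm_num
      · left; exact cert_13_3 K
      · norm_num at hq
      · right
        refine lt_pow_orderOf 13 5 306 4 hq hq13 ?_ (by norm_num)
        intro k hk hk'
        interval_cases k <;> norm_num
      · norm_num at hq
      · right
        refine lt_pow_orderOf 13 7 306 3 hq hq13 ?_ (by norm_num)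
        intro k hk hk'
        interval_cases k <;> norm_num
      · norm_num at hq
      · norm_num at hq
      · norm_num at hq
      · right
        refine lt_pow_orderOf 13 11 306 3 hq hq13 ?_ (by norm_num)
        intro k hk hk'
        interval_cases k <;> norm_num
      · norm_num at hq
      · exact absurd rfl hq13
      · norm_num at hq
      · norm_num at hq
      · norm_num at hq
      · right
        refine lt_pow_orderOf 13 17 306 3 hq hq13 ?_ (by norm_num)
        intro k hk hk'
        interval_cases k <;> norm_num
    · by_cases h1 : q % 13 = 1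
      · obtain ⟨k, hk⟩ : ∃ k, q = 13 * k + 1 := ⟨q / 13, by omega⟩
        have hk5 : k ≤ 23 := by omega
        subst hk
        interval_cases k <;> first
          | (exfalso; revert hq; norm_num; done)
          | exact Or.inl (cert_13_53 K)
          | exact Or.inl (cert_13_79 K)
          | exact Or.inl (cert_13_131 K)
          | exact Or.inl (cert_13_157 K)
      · right
        refine lt_pow_orderOf 13 q 306 2 hq hq13 ?_ (by nlinarith)
        intro k hk hk'
        have hk1 : k = 1 := by omega
        subst hk1
        rwa [pow_one]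

end Fermat.Agent.Cyclo
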