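import Mathlib

/-!
# Kummer's lemma via cyclotomic units: group-theoretic part

Purely group theoretic and elementary computational lemmas used in the proof of
Kummer's lemma for small regular primes.
-/

set_option autoImplicit false

namespace Fermat.Agent.Cyclo

section GroupTheory

variable {G : Type*} [CommGroup G]

/-- A vector space over `ZMod p` generated as a group by a finite set `t` has
`p ^ f` elements with `f ≤ #t`. -/
theorem card_eq_pow_of_closure_aux {V : Type*} [AddCommGroup V] (p : ℕ) [hp : Fact p.Prime]
    [Module (ZMod p) V] (t : Finset V) (ht : AddSubgroup.closure (t : Set V) = ⊤) :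
    ∃ f ≤ t.card, Nat.card V = p ^ f := by
  classical
  have ht' : Submodule.span (ZMod p) (t : Set V) = ⊤ := by
    rw [eq_top_iff]
    intro x _
    have hx : x ∈ AddSubgroup.closure (t : Set V) := by rw [ht]; trivial
    have hle : AddSubgroup.closure (t : Set V) ≤
        (Submodule.span (ZMod p) (t : Set V)).toAddSubgroup := by
      rw [AddSubgroup.closure_le]
      exact Submodule.subset_span
    exact hle hx
  haveI : Module.Finite (ZMod p) V := ⟨⟨t, ht'⟩⟩
  refine ⟨Module.finrank (ZMod p) V, ?_, ?_⟩
  · rw [← finrank_top, ← ht']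
    exact finrank_span_finset_le_card t
  · have h1 : Nat.card V = Nat.card (ZMod p) ^
        Module.finrank (ZMod p) V := Module.natCard_eq_pow_finrank
    rw [Nat.card_zmod] at h1
    rw [← h1]

/-- An additive commutative group killed by a prime `p` and generated by a finite set `t` has
`p ^ f` elements with `f ≤ #t`. -/
theorem card_eq_pow_of_closure {V : Type*} [AddCommGroup V] (p : ℕ) [hp : Fact p.Prime]
    (hp0 : ∀ x : V, p • x = 0) (t : Finset V) (ht : AddSubgroup.closure (t : Set V) = ⊤) :
    ∃ f ≤ t.card, Nat.card V = p ^ f :=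
  @card_eq_pow_of_closure_aux V _ p hp (AddCommGroup.zmodModule hp0) t ht

/-- If a commutative group is generated by a finite set `s`, then the index of the subgroup of
`p`-th powers is `p ^ f` with `f ≤ #s`. -/
theorem index_range_pow_of_closure (p : ℕ) [hp : Fact p.Prime] (s : Finset G)
    (hs : Subgroup.closure (s : Set G) = ⊤) :
    ∃ f ≤ s.card, (powMonoidHom p : G →* G).range.index = p ^ f := by
  classical
  set H : Subgroup G := (powMonoidHom p : G →* G).range with hH
  have hp0 : ∀ x : Additive (G ⧸ H), p • x = 0 := by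
    intro x
    obtain ⟨y, rfl⟩ := Additive.ofMul.surjective x
    obtain ⟨g, rfl⟩ := QuotientGroup.mk_surjective y
    rw [← ofMul_pow, ← QuotientGroup.mk_pow]
    have : (QuotientGroup.mk (g ^ p) : G ⧸ H) = 1 := by
      rw [QuotientGroup.eq_one_iff]
      exact ⟨g, rfl⟩
    rw [this, ofMul_one]
  let t : Finset (Additive (G ⧸ H)) := s.image fun g => Additive.ofMul (QuotientGroup.mk g)
  have ht : AddSubgroup.closure (t : Set (Additive (G ⧸ H))) = ⊤ := by
    rw [eq_top_iff]
    intro x _
    obtain ⟨y, rfl⟩ := Additive.ofMul.surjective x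
    obtain ⟨g, rfl⟩ := QuotientGroup.mk_surjective y
    have hg : g ∈ Subgroup.closure (s : Set G) := by rw [hs]; trivial
    induction hg using Subgroup.closure_induction with
    | mem x hx =>
      apply AddSubgroup.subset_closure
      simp only [t, Finset.coe_image, Set.mem_image, Finset.mem_coe]
      exact ⟨x, hx, rfl⟩
    | one => exact AddSubgroup.zero_mem _
    | mul x y _ _ hx hy => exact AddSubgroup.add_mem _ (hx trivial) (hy trivial)
    | inv x _ hx => exact AddSubgroup.neg_mem _ (hx trivial)
  obtain ⟨f, hf, hcard⟩ := card_eq_pow_of_closure p hp0 t ht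
  exact ⟨f, hf.trans Finset.card_image_le, hcard⟩

/-- A strictly decreasing chain of length `m` of subgroups above a subgroup of index `p ^ f`,
`f ≤ m`, ends at that subgroup. -/
theorem eq_of_strict_chain (p m : ℕ) [hp : Fact p.Prime] (A : ℕ → Subgroup G) (H : Subgroup G)
    (hle : ∀ j, H ≤ A j) (hanti : ∀ j, A (j + 1) ≤ A j) (hne : ∀ j < m, ¬ A j ≤ A (j + 1))
    (hidx : ∃ f ≤ m, H.index = p ^ f) : A m = H := by
  obtain ⟨f, hfm, hf⟩ := hidx
  have key : ∀ j ≤ m, p ^ j ∣ (A j).index := by
    intro j
    induction j with
    | zero => intro _; simp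
    | succ j ih =>
      intro hj
      have h1 := Subgroup.relIndex_mul_index (hanti j)
      have h2 : (A (j + 1)).relIndex (A j) ∣ p ^ f := by
        rw [← hf]
        exact (Dvd.intro _ h1).trans (Subgroup.index_dvd_of_le (hle (j + 1)))
      have h3 : (A (j + 1)).relIndex (A j) ≠ 1 := by
        intro h
        exact hne j (by omega) (Subgroup.relIndex_eq_one.mp h)
      have h4 : p ∣ (A (j + 1)).relIndex (A j) := by
        obtain ⟨i, -, hi⟩ := (Nat.dvd_prime_pow hp.out).mp h2
        rw [hi] at h3 ⊢
        refine dvd_pow_self p ?_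
        rintro rfl
        exact h3 (pow_zero p)
      rw [← h1, pow_succ, mul_comm]
      exact Nat.mul_dvd_mul h4 (ih (by omega))
  have hm := key m le_rfl
  have hmf : p ^ m ∣ p ^ f := hf ▸ hm.trans (Subgroup.index_dvd_of_le (hle m))
  have hfm' : m = f := le_antisymm ((Nat.pow_dvd_pow_iff_le_right hp.out.one_lt).mp hmf) hfm
  subst hfm'
  have h5 := Subgroup.relIndex_mul_index (hle m)
  have h6 : (A m).index = p ^ m :=
    Nat.dvd_antisymm (hf ▸ Subgroup.index_dvd_of_le (hle m)) hm
  rw [h6, hf] at h5
  have h7 : H.relIndex (A m) = 1 := by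
    have : (p ^ m) ≠ 0 := pow_ne_zero _ hp.out.ne_zero
    exact Nat.eq_of_mul_eq_mul_right (Nat.pos_of_ne_zero this) (by rw [h5, one_mul])
  exact le_antisymm (Subgroup.relIndex_eq_one.mp h7) (hle m)

end GroupTheory

section Trunc

/-! Truncated polynomial arithmetic with natural number coefficients modulo `p`. -/

variable {R : Type*} [CommRing R]

/-- Evaluate a list of natural numbers as a polynomial at `L`. -/
def evalL (L : R) : List ℕ → R
  | [] => 0
  | a :: l => (a : R) + L * evalL L l

/-- Add two coefficient lists modulo `p`. -/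
def addL (p : ℕ) : List ℕ → List ℕ → List ℕ
  | [], l => l
  | a :: l, [] => a :: l
  | a :: l, b :: l' => ((a + b) % p) :: addL p l l'

/-- Multiply a coefficient list by a constant modulo `p`, truncated at length `n`. -/
def smulL (p c : ℕ) : ℕ → List ℕ → List ℕ
  | 0, _ => []
  | _ + 1, [] => []
  | n + 1, a :: l => ((c * a) % p) :: smulL p c n l

/-- Truncated multiplication. -/
def mulL (p : ℕ) : ℕ → List ℕ → List ℕ → List ℕ
  | 0, _, _ => []
  | _ + 1, [], _ => []
  | n + 1, a :: l, m => addL p (smulL p a (n + 1) m) (0 :: mulL p n l m)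

/-- Truncated powers. -/
def powL (p n : ℕ) (l : List ℕ) : ℕ → List ℕ
  | 0 => [1]
  | e + 1 => mulL p n l (powL p n l e)

/-- `(1 + L) ^ m * ∏ (1 + (1 + L) ^ a) ^ e`. -/
def wordL (p n m : ℕ) : List (ℕ × ℕ) → List ℕ
  | [] => powL p n [1, 1] m
  | (a, e) :: fs => mulL p n (powL p n (addL p [1] (powL p n [1, 1] a)) e) (wordL p n m fs)

variable {p : ℕ} (hp : (p : R) = 0) (L : R)

include hp

theorem natCast_mod (a : ℕ) : ((a % p : ℕ) : R) = a := by
  conv_rhs => rw [← Nat.mod_add_div a p]
  simp [hp]

theorem evalL_addL (l m : List ℕ) : evalL L (addL p l m) = evalL L l + evalL L m := by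
  induction l generalizing m with
  | nil => simp [addL, evalL]
  | cons a l ih =>
    cases m with
    | nil => simp [addL, evalL]
    | cons b m =>
      simp only [addL, evalL, natCast_mod hp, ih, Nat.cast_add]
      ring

theorem mul_evalL_smulL (c n : ℕ) (m : List ℕ) (x : R) (hx : x * L ^ n = 0) :
    x * evalL L (smulL p c n m) = x * (c * evalL L m) := by
  induction n generalizing m x with
  | zero =>
    have : x = 0 := by simpa using hx
    simp [this]
  | succ n ih =>
    cases m with
    | nil => simp [smulL, evalL]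
    | cons a m =>
      simp only [smulL, evalL, natCast_mod hp, Nat.cast_mul]
      have := ih m (x * L) (by rw [mul_assoc, ← pow_succ']; exact hx)
      linear_combination this

theorem mul_evalL_mulL (n : ℕ) (l m : List ℕ) (x : R) (hx : x * L ^ n = 0) :
    x * evalL L (mulL p n l m) = x * (evalL L l * evalL L m) := by
  induction n generalizing l x with
  | zero =>
    have : x = 0 := by simpa using hx
    simp [this]
  | succ n ih =>
    cases l with
    | nil => simp [mulL, evalL]
    | cons a l =>
      simp only [mulL, evalL_addL hp, evalL, Nat.cast_zero, zero_add]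
      have h1 := ih l (x * L) (by rw [mul_assoc, ← pow_succ']; exact hx)
      have h2 := mul_evalL_smulL hp L a (n + 1) m x hx
      linear_combination h1 + h2

variable {n : ℕ} (hL : L ^ n = 0)

include hL

theorem evalL_mulL (l m : List ℕ) : evalL L (mulL p n l m) = evalL L l * evalL L m := by
  have := mul_evalL_mulL hp L n l m 1 (by rw [one_mul, hL])
  simpa using this

theorem evalL_powL (l : List ℕ) (e : ℕ) : evalL L (powL p n l e) = evalL L l ^ e := by
  induction e with
  | zero => simp [powL, evalL]
  | succ e ih => rw [powL, evalL_mulL hp L hL, ih, pow_succ']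

theorem evalL_wordL (m : ℕ) (fs : List (ℕ × ℕ)) :
    evalL L (wordL p n m fs) =
      (1 + L) ^ m * (fs.map fun x => (1 + (1 + L) ^ x.1) ^ x.2).prod := by
  have h1 : evalL L [1, 1] = 1 + L := by simp [evalL]
  induction fs with
  | nil => simp [wordL, evalL_powL hp L hL, h1]
  | cons x fs ih =>
    obtain ⟨a, e⟩ := x
    rw [wordL, evalL_mulL hp L hL, ih, evalL_powL hp L hL, evalL_addL hp, evalL_powL hp L hL, h1,
      List.map_cons, List.prod_cons]
    simp only [evalL, Nat.cast_one, mul_zero, add_zero]
    ring

omit hp hL in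
theorem evalL_special (k c c' : ℕ) :
    evalL L (c :: (List.replicate k 0 ++ [c'])) = c + c' * L ^ (k + 1) := by
  have : ∀ k, evalL L (List.replicate k 0 ++ [c']) = c' * L ^ k := by
    intro k
    induction k with
    | zero => simp [evalL]
    | succ k ih =>
      rw [List.replicate_succ, List.cons_append, evalL, ih]
      push_cast
      ring
  rw [evalL, this]
  ring

end Trunc

end Fermat.Agent.Cyclo
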