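import Mathlib
import Fermat.Agent.Cyclo.KummerGroup

/-!
# Kummer's lemma via cyclotomic units: level subgroups
-/

set_option autoImplicit false

namespace Fermat.Agent.Cyclo

open NumberField IsCyclotomicExtension.Rat

section

variable {K : Type*} [Field K] [NumberField K] {p : ℕ} [hp : Fact p.Prime]
  [IsCyclotomicExtension {p} ℚ K] {ζ : K} (hζ : IsPrimitiveRoot ζ p)

/-- Every integer of `ℚ(ζ_p)` is congruent to a rational integer modulo `ζ - 1`. -/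
theorem exists_int_sub_one_dvd_sub (hp2 : p ≠ 2) (x : 𝓞 K) :
    ∃ n : ℤ, hζ.toInteger - 1 ∣ x - n := by
  have : NeZero p := ⟨hp.out.ne_zero⟩
  have hcard : Nat.card (𝓞 K ⧸ Ideal.span {hζ.toInteger - 1}) = p := by
    rw [hζ.card_quotient_toInteger_sub_one, hζ.norm_toInteger_sub_one_of_prime_ne_two' hp2]
    simp
  have : Finite (𝓞 K ⧸ Ideal.span {hζ.toInteger - 1}) :=
    Nat.finite_of_card_ne_zero (by rw [hcard]; exact hp.out.ne_zero)
  let _ : Fintype (𝓞 K ⧸ Ideal.span {hζ.toInteger - 1}) := Fintype.ofFinite _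
  have hcard' : Fintype.card (𝓞 K ⧸ Ideal.span {hζ.toInteger - 1}) = p := by
    rw [← Nat.card_eq_fintype_card, hcard]
  let e := ZMod.ringEquivOfPrime (𝓞 K ⧸ Ideal.span {hζ.toInteger - 1}) hp.out hcard'
  obtain ⟨a, ha⟩ := e.surjective (Ideal.Quotient.mk _ x)
  obtain ⟨n, rfl⟩ := ZMod.intCast_surjective a
  refine ⟨n, ?_⟩
  rw [map_intCast] at ha
  rw [← Ideal.mem_span_singleton, ← Ideal.Quotient.eq_zero_iff_mem, map_sub, map_intCast, ha,
    sub_self]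

/-- `p` is divisible by `(ζ - 1) ^ n` for `n ≤ p - 1`. -/
theorem sub_one_pow_dvd_p {n : ℕ} (hn : n ≤ p - 1) : (hζ.toInteger - 1) ^ n ∣ (p : 𝓞 K) :=
  (pow_dvd_pow _ hn).trans (associated_zeta_sub_one_pow_prime p hζ).dvd

include hζ in
/-- The `p`-th power of an integer of `ℚ(ζ_p)` is congruent to an integer mod `p`. -/
theorem exists_int_dvd_pow_sub (hp2 : p ≠ 2) (x : 𝓞 K) :
    ∃ n : ℤ, (p : 𝓞 K) ∣ x ^ p - n := by
  obtain ⟨n, y, hy⟩ := exists_int_sub_one_dvd_sub hζ hp2 x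
  refine ⟨n ^ p, ?_⟩
  have hx : x = (hζ.toInteger - 1) * y + n := by rw [← hy]; ring
  have h1 : (p : 𝓞 K) ∣ ((hζ.toInteger - 1) * y + n) ^ p -
      (((hζ.toInteger - 1) * y) ^ p + (n : 𝓞 K) ^ p) := by
    rw [add_pow_prime_eq hp.out, add_sub_cancel_left, mul_assoc, mul_assoc]
    exact dvd_mul_right _ _
  have h2 : (p : 𝓞 K) ∣ ((hζ.toInteger - 1) * y) ^ p := by
    rw [mul_pow]
    refine Dvd.dvd.mul_right ?_ _
    exact ((associated_zeta_sub_one_pow_prime p hζ).symm.dvd).trans (pow_dvd_pow _ (Nat.sub_le _ _))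
  have h3 := dvd_add h1 h2
  push_cast
  rw [hx]
  convert h3 using 1
  ring

/-- The subgroup of units congruent to a rational integer modulo `(ζ - 1) ^ n`. -/
def lev (n : ℕ) : Subgroup (𝓞 K)ˣ where
  carrier := {u | ∃ c : ℤ, (hζ.toInteger - 1) ^ n ∣ (u : 𝓞 K) - c}
  mul_mem' := by
    rintro u v ⟨c, hc⟩ ⟨d, hd⟩
    refine ⟨c * d, ?_⟩
    have : ((u * v : (𝓞 K)ˣ) : 𝓞 K) - ((c * d : ℤ) : 𝓞 K) =
        u * ((v : 𝓞 K) - d) + d * ((u : 𝓞 K) - c) := by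
      push_cast; ring
    rw [this]
    exact dvd_add (hd.mul_left _) (hc.mul_left _)
  one_mem' := ⟨1, by simp⟩
  inv_mem' := by
    rintro u ⟨c, hc⟩
    rcases Nat.eq_zero_or_pos n with rfl | hn
    · exact ⟨0, by simp⟩
    have hpc : ¬ (p : ℤ) ∣ c := by
      intro h
      have h1 : hζ.toInteger - 1 ∣ (c : 𝓞 K) := (zeta_sub_one_dvd_intCast_iff' p hζ).mpr h
      have h2 : hζ.toInteger - 1 ∣ (u : 𝓞 K) - c := (dvd_pow_self _ hn.ne').trans hc
      have h3 : hζ.toInteger - 1 ∣ (u : 𝓞 K) := by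
        have := dvd_add h2 h1
        simpa using this
      exact hζ.zeta_sub_one_prime'.not_isUnit (isUnit_of_dvd_unit h3 u.isUnit)
    have hcop : IsCoprime c ((p : ℤ) ^ n) := by
      refine IsCoprime.pow_right ?_
      rw [isCoprime_comm]
      exact (Nat.prime_iff_prime_int.mp hp.out).coprime_iff_not_dvd.mpr hpc
    obtain ⟨a, b, hab⟩ := hcop
    refine ⟨a, ?_⟩
    have hpn : (hζ.toInteger - 1) ^ n ∣ (((p : ℤ) ^ n : ℤ) : 𝓞 K) := by
      push_cast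
      exact pow_dvd_pow_of_dvd hζ.toInteger_sub_one_dvd_prime' n
    have hab' : (a : 𝓞 K) * c + b * (((p : ℤ) ^ n : ℤ) : 𝓞 K) = 1 := by
      have := congrArg (Int.cast : ℤ → 𝓞 K) hab
      push_cast at this ⊢
      exact this
    have key : ((u⁻¹ : (𝓞 K)ˣ) : 𝓞 K) - a = ((u⁻¹ : (𝓞 K)ˣ) : 𝓞 K) *
        (b * (((p : ℤ) ^ n : ℤ) : 𝓞 K) - a * ((u : 𝓞 K) - c)) := by
      have hu : ((u⁻¹ : (𝓞 K)ˣ) : 𝓞 K) * u = 1 := u.inv_mul
      linear_combination (-((u⁻¹ : (𝓞 K)ˣ) : 𝓞 K)) * hab' + (a : 𝓞 K) * hu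
    rw [key]
    exact Dvd.dvd.mul_left (dvd_sub (hpn.mul_left _) (hc.mul_left _)) _

theorem mem_lev {n : ℕ} {u : (𝓞 K)ˣ} :
    u ∈ lev hζ n ↔ ∃ c : ℤ, (hζ.toInteger - 1) ^ n ∣ (u : 𝓞 K) - c := Iff.rfl

theorem lev_anti {m n : ℕ} (h : m ≤ n) : lev hζ n ≤ lev hζ m := by
  rintro u ⟨c, hc⟩
  exact ⟨c, (pow_dvd_pow _ h).trans hc⟩

theorem range_pow_le_lev (hp2 : p ≠ 2) {n : ℕ} (hn : n ≤ p - 1) :
    (powMonoidHom p : (𝓞 K)ˣ →* (𝓞 K)ˣ).range ≤ lev hζ n := by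
  rintro _ ⟨u, rfl⟩
  obtain ⟨c, hc⟩ := exists_int_dvd_pow_sub hζ hp2 (u : 𝓞 K)
  exact ⟨c, by simpa using (sub_one_pow_dvd_p hζ hn).trans hc⟩

/-- A unit with expansion `c + c' (ζ - 1) ^ k + ...`, `p ∤ c'`, is not in `lev (k + 1)`. -/
theorem notMem_lev {k : ℕ} (hk : 1 ≤ k) (hkp : k + 1 ≤ p - 1) {u : (𝓞 K)ˣ} {c c' : ℤ}
    (hu : (hζ.toInteger - 1) ^ (k + 1) ∣ (u : 𝓞 K) - (c + c' * (hζ.toInteger - 1) ^ k))
    (hc' : ¬ (p : ℤ) ∣ c') : u ∉ lev hζ (k + 1) := by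
  rintro ⟨n, hn⟩
  set L : 𝓞 K := hζ.toInteger - 1 with hL
  have hL0 : L ≠ 0 := hζ.zeta_sub_one_prime'.ne_zero
  have h1 : L ^ (k + 1) ∣ ((c - n : ℤ) : 𝓞 K) + c' * L ^ k := by
    have := dvd_sub hn hu
    have e : (u : 𝓞 K) - n - ((u : 𝓞 K) - (c + c' * L ^ k)) = ((c - n : ℤ) : 𝓞 K) + c' * L ^ k := by
      push_cast; ring
    rwa [e] at this
  have h2 : L ∣ ((c - n : ℤ) : 𝓞 K) := by
    have h3 : L ∣ ((c - n : ℤ) : 𝓞 K) + c' * L ^ k := (dvd_pow_self _ (by omega)).trans h1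
    have h4 : L ∣ (c' : 𝓞 K) * L ^ k := (dvd_pow_self _ (by omega)).mul_left _
    exact (dvd_add_left h4).mp h3
  have h5 : (p : ℤ) ∣ c - n := (zeta_sub_one_dvd_intCast_iff' p hζ).mp h2
  have h6 : L ^ (k + 1) ∣ ((c - n : ℤ) : 𝓞 K) := by
    obtain ⟨m, hm⟩ := h5
    rw [hm]
    push_cast
    exact (sub_one_pow_dvd_p hζ hkp).mul_right _
  have h7 : L ^ (k + 1) ∣ (c' : 𝓞 K) * L ^ k := (dvd_add_right h6).mp h1
  have h8 : L ∣ (c' : 𝓞 K) := by
    rw [pow_succ, mul_comm (L ^ k) L] at h7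
    exact (mul_dvd_mul_iff_right (pow_ne_zero k hL0)).mp h7
  exact hc' ((zeta_sub_one_dvd_intCast_iff' p hζ).mp h8)

theorem mem_lev_of_dvd {k : ℕ} {u : (𝓞 K)ˣ} {c c' : ℤ}
    (hu : (hζ.toInteger - 1) ^ (k + 1) ∣ (u : 𝓞 K) - (c + c' * (hζ.toInteger - 1) ^ k)) :
    u ∈ lev hζ k := by
  refine ⟨c, ?_⟩
  have h1 := (pow_dvd_pow _ (Nat.le_succ k)).trans hu
  have h2 : (hζ.toInteger - 1) ^ k ∣ (c' : 𝓞 K) * (hζ.toInteger - 1) ^ k := dvd_mul_left _ _
  have h3 := dvd_add h1 h2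
  convert h3 using 1
  ring

end

section Rank

variable (K : Type*) [Field K] [NumberField K] (p : ℕ) [hp : Fact p.Prime]
  [IsCyclotomicExtension {p} ℚ K]

/-- The index of the `p`-th powers in the unit group of `ℚ(ζ_p)` is `p ^ f` with
`f ≤ (p - 1) / 2`. -/
theorem index_units_pow (hp3 : 3 ≤ p) :
    ∃ f ≤ (p - 1) / 2, (powMonoidHom p : (𝓞 K)ˣ →* (𝓞 K)ˣ).range.index = p ^ f := by
  classical
  have : NeZero p := ⟨hp.out.ne_zero⟩
  obtain ⟨g, hg⟩ := IsCyclic.exists_generator (α := Units.torsion K)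
  let s : Finset (𝓞 K)ˣ := insert (g : (𝓞 K)ˣ) (Finset.univ.image (Units.fundSystem K))
  have hs : Subgroup.closure (s : Set (𝓞 K)ˣ) = ⊤ := by
    rw [eq_top_iff, ← Units.closure_fundSystem_sup_torsion_eq_top K, sup_le_iff]
    constructor
    · rw [Subgroup.closure_le]
      intro x hx
      apply Subgroup.subset_closure
      simp only [s, Finset.coe_insert, Finset.coe_image, Finset.coe_univ, Set.image_univ]
      exact Set.mem_insert_of_mem _ hx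
    · intro x hx
      obtain ⟨n, hn⟩ := Subgroup.mem_zpowers_iff.mp (hg ⟨x, hx⟩)
      have hx' : x = (g : (𝓞 K)ˣ) ^ n := by
        have := congrArg (Subtype.val) hn
        simpa using this.symm
      rw [hx']
      refine Subgroup.zpow_mem _ (Subgroup.subset_closure ?_) n
      simp [s]
  obtain ⟨f, hf, hidx⟩ := index_range_pow_of_closure p s hs
  refine ⟨f, hf.trans ?_, hidx⟩
  have h1 : s.card ≤ Units.rank K + 1 := by
    refine (Finset.card_insert_le _ _).trans ?_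
    gcongr
    exact Finset.card_image_le.trans (by simp)
  refine h1.trans ?_
  rw [Units.rank, InfinitePlace.card_eq_nrRealPlaces_add_nrComplexPlaces,
    nrRealPlaces_eq_zero (n := p) K (by omega), nrComplexPlaces_eq_totient_div_two p K,
    Nat.totient_prime hp.out]
  omega

end Rank

section Main

variable {K : Type*} [Field K] [NumberField K] {p : ℕ} [hp : Fact p.Prime]
  [IsCyclotomicExtension {p} ℚ K]

/-- **Kummer's lemma**, reduced to the existence of sufficiently many explicit units. -/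
theorem kummer_of_units {ζ : K} (hζ : IsPrimitiveRoot ζ p) (hp5 : 5 ≤ p)
    (hw : ∀ j, 1 ≤ j → 2 * j + 1 ≤ p - 1 → ∃ (w : (𝓞 K)ˣ) (c c' : ℤ), ¬ (p : ℤ) ∣ c' ∧
      (hζ.toInteger - 1) ^ (2 * j + 1) ∣ (w : 𝓞 K) - (c + c' * (hζ.toInteger - 1) ^ (2 * j)))
    (u : (𝓞 K)ˣ) (hu : ∃ n : ℤ, (p : 𝓞 K) ∣ (u : 𝓞 K) - n) : ∃ v : (𝓞 K)ˣ, u = v ^ p := by
  have hodd : p % 2 = 1 := hp.out.eq_two_or_odd.resolve_left (by omega)
  have hp2 : p ≠ 2 := by omega
  set m := (p - 1) / 2 with hm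
  have h2m : 2 * m = p - 1 := by omega
  -- the chain
  let A : ℕ → Subgroup (𝓞 K)ˣ := fun j => lev hζ (min (2 * j) (p - 1))
  have hA : A m = (powMonoidHom p : (𝓞 K)ˣ →* (𝓞 K)ˣ).range := by
    refine eq_of_strict_chain p m A _ (fun j => ?_) (fun j => ?_) (fun j hj => ?_)
      (index_units_pow K p (by omega))
    · exact range_pow_le_lev hζ hp2 (min_le_right _ _)
    · exact lev_anti hζ (by omega)
    · have e1 : min (2 * j) (p - 1) = 2 * j := by omega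
      have e2 : min (2 * (j + 1)) (p - 1) = 2 * j + 2 := by omega
      intro hle
      simp only [A, e1, e2] at hle
      rcases Nat.eq_zero_or_pos j with rfl | hj0
      · -- use `ζ` itself
        have : NeZero p := ⟨hp.out.ne_zero⟩
        have hunit : IsUnit hζ.toInteger :=
          hζ.toInteger_isPrimitiveRoot.isUnit hp.out.ne_zero
        have hmem : hunit.unit ∈ lev hζ (2 * 0) := ⟨0, by simp⟩
        refine notMem_lev hζ (k := 1) (c := 1) (c' := 1) le_rfl (by omega) ?_ ?_ (hle hmem)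
        · simp
        · intro h
          have := Int.le_of_dvd one_pos h
          omega
      · obtain ⟨w, c, c', hc', hdvd⟩ := hw j hj0 (by omega)
        have h1 : w ∈ lev hζ (2 * j) := mem_lev_of_dvd hζ hdvd
        have h2 := hle h1
        exact notMem_lev hζ (by omega) (by omega) hdvd hc' (lev_anti hζ (by omega) h2)
  have hmem : u ∈ A m := by
    obtain ⟨n, hn⟩ := hu
    exact ⟨n, (sub_one_pow_dvd_p hζ (min_le_right _ _)).trans hn⟩
  rw [hA] at hmem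
  obtain ⟨v, hv⟩ := hmem
  exact ⟨v, by simpa using hv.symm⟩

/-- The unit `ζ ^ m * ∏ (1 + ζ ^ a) ^ e`. -/
theorem exists_word_unit {ζ : K} (hζ : IsPrimitiveRoot ζ p) (hp5 : 5 ≤ p)
    (m : ℕ) (fs : List (ℕ × ℕ)) (hfs : ∀ x ∈ fs, Nat.Coprime x.1 p) :
    ∃ w : (𝓞 K)ˣ, (w : 𝓞 K) = hζ.toInteger ^ m *
      (fs.map fun x => (1 + hζ.toInteger ^ x.1) ^ x.2).prod := by
  have : NeZero p := ⟨hp.out.ne_zero⟩
  have hζ' := hζ.toInteger_isPrimitiveRoot
  have hunit : IsUnit hζ.toInteger := hζ'.isUnit hp.out.ne_zero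
  have hone : ∀ a : ℕ, Nat.Coprime a p → IsUnit (1 + hζ.toInteger ^ a) := by
    intro a ha
    have h1 : IsPrimitiveRoot (hζ.toInteger ^ a) p := hζ'.pow_of_coprime a ha
    have h2 := h1.geom_sum_isUnit (j := 2) (by omega)
      ((Nat.coprime_primes Nat.prime_two hp.out).mpr (by omega))
    simpa [Finset.sum_range_succ] using h2
  have hprod : IsUnit (fs.map fun x => (1 + hζ.toInteger ^ x.1) ^ x.2).prod := by
    induction fs with
    | nil => simp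
    | cons x fs ih =>
      rw [List.map_cons, List.prod_cons]
      refine IsUnit.mul (IsUnit.pow _ (hone _ (hfs x (by simp)))) (ih fun y hy => hfs y (by simp [hy]))
  exact ⟨((hunit.pow m).mul hprod).unit, rfl⟩

/-- Kummer's lemma, reduced to a finite computation modulo `p`. -/
theorem kummer_of_words {ζ : K} (hζ : IsPrimitiveRoot ζ p) (hp5 : 5 ≤ p)
    (hw : ∀ j, 1 ≤ j → 2 * j + 1 ≤ p - 1 → ∃ (m : ℕ) (fs : List (ℕ × ℕ)) (c c' : ℕ),
      (∀ x ∈ fs, Nat.Coprime x.1 p) ∧ ¬ p ∣ c' ∧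
      wordL p (2 * j + 1) m fs = c :: (List.replicate (2 * j - 1) 0 ++ [c']))
    (u : (𝓞 K)ˣ) (hu : ∃ n : ℤ, (p : 𝓞 K) ∣ (u : 𝓞 K) - n) : ∃ v : (𝓞 K)ˣ, u = v ^ p := by
  refine kummer_of_units hζ hp5 (fun j hj1 hj2 => ?_) u hu
  obtain ⟨m, fs, c, c', hfs, hc', hword⟩ := hw j hj1 hj2
  obtain ⟨w, hwv⟩ := exists_word_unit hζ hp5 m fs hfs
  refine ⟨w, c, c', ?_, ?_⟩
  · intro h
    exact hc' (Int.natCast_dvd_natCast.mp h)
  · set I : Ideal (𝓞 K) := Ideal.span {(hζ.toInteger - 1) ^ (2 * j + 1)} with hI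
    rw [← Ideal.mem_span_singleton, ← Ideal.Quotient.eq_zero_iff_mem]
    set L : 𝓞 K ⧸ I := Ideal.Quotient.mk I (hζ.toInteger - 1) with hL
    have hp0 : ((p : ℕ) : 𝓞 K ⧸ I) = 0 := by
      have : ((p : ℕ) : 𝓞 K ⧸ I) = Ideal.Quotient.mk I (p : 𝓞 K) := by simp
      rw [this, Ideal.Quotient.eq_zero_iff_mem, hI, Ideal.mem_span_singleton]
      exact sub_one_pow_dvd_p hζ hj2
    have hLn : L ^ (2 * j + 1) = 0 := by
      rw [hL, ← map_pow, Ideal.Quotient.eq_zero_iff_mem, hI]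
      exact Ideal.mem_span_singleton_self _
    have h1 := evalL_wordL hp0 L hLn m fs
    rw [hword, evalL_special] at h1
    have e1 : 1 + L = Ideal.Quotient.mk I hζ.toInteger := by
      rw [hL]; simp
    have e2 : 2 * j - 1 + 1 = 2 * j := by omega
    rw [e1, e2] at h1
    have e3 : Ideal.Quotient.mk I (w : 𝓞 K) = (Ideal.Quotient.mk I hζ.toInteger) ^ m *
        (fs.map fun x => (1 + (Ideal.Quotient.mk I hζ.toInteger) ^ x.1) ^ x.2).prod := by
      rw [hwv, map_mul, map_pow, map_list_prod, List.map_map]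
      congr 2
    have e4 : Ideal.Quotient.mk I ((((c : ℕ) : ℤ) : 𝓞 K) + (((c' : ℕ) : ℤ) : 𝓞 K) *
        (hζ.toInteger - 1) ^ (2 * j)) = c + c' * L ^ (2 * j) := by
      rw [map_add, map_mul, map_pow, ← hL]
      simp
    rw [map_sub, e4, e3, ← h1, sub_self]

end Main

end Fermat.Agent.Cyclo
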