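import Mathlib
import Fermat.Agent.Cyclo.KummerLevels

/-!
# Kummer's lemma for `p = 5, 7, 11, 13`

A unit of `ℤ[ζ_p]` congruent to a rational integer modulo `p` is a `p`-th power.
-/

set_option autoImplicit false

namespace Fermat.Agent.Cyclo

open NumberField

private theorem levels_five : ∀ j, 1 ≤ j → 2 * j + 1 ≤ 5 - 1 →
    ∃ (m : ℕ) (fs : List (ℕ × ℕ)) (c c' : ℕ),
      (∀ x ∈ fs, Nat.Coprime x.1 5) ∧ ¬ 5 ∣ c' ∧
      wordL 5 (2 * j + 1) m fs = c :: (List.replicate (2 * j - 1) 0 ++ [c']) := by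
  intro j h1 h2
  obtain rfl : j = 1 := by omega
  exact ⟨1, [(3, 1)], 2, 1, by decide, by decide, by decide⟩

private theorem levels_seven : ∀ j, 1 ≤ j → 2 * j + 1 ≤ 7 - 1 →
    ∃ (m : ℕ) (fs : List (ℕ × ℕ)) (c c' : ℕ),
      (∀ x ∈ fs, Nat.Coprime x.1 7) ∧ ¬ 7 ∣ c' ∧
      wordL 7 (2 * j + 1) m fs = c :: (List.replicate (2 * j - 1) 0 ++ [c']) := by
  intro j h1 h2
  obtain rfl | rfl : j = 1 ∨ j = 2 := by omega
  · exact ⟨1, [(5, 1)], 2, 1, by decide, by decide, by decide⟩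
  · exact ⟨1, [(1, 3), (2, 1)], 2, 6, by decide, by decide, by decide⟩

private theorem levels_eleven : ∀ j, 1 ≤ j → 2 * j + 1 ≤ 11 - 1 →
    ∃ (m : ℕ) (fs : List (ℕ × ℕ)) (c c' : ℕ),
      (∀ x ∈ fs, Nat.Coprime x.1 11) ∧ ¬ 11 ∣ c' ∧
      wordL 11 (2 * j + 1) m fs = c :: (List.replicate (2 * j - 1) 0 ++ [c']) := by
  intro j h1 h2
  obtain rfl | rfl | rfl | rfl : j = 1 ∨ j = 2 ∨ j = 3 ∨ j = 4 := by omega
  · exact ⟨2, [(7, 1)], 2, 4, by decide, by decide, by decide⟩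
  · exact ⟨1, [(1, 1), (4, 2)], 8, 2, by decide, by decide, by decide⟩
  · exact ⟨0, [(1, 1), (2, 4), (8, 3)], 3, 8, by decide, by decide, by decide⟩
  · exact ⟨0, [(1, 1), (3, 2), (4, 7), (5, 4)], 5, 2, by decide, by decide, by decide +kernel⟩

private theorem levels_thirteen : ∀ j, 1 ≤ j → 2 * j + 1 ≤ 13 - 1 →
    ∃ (m : ℕ) (fs : List (ℕ × ℕ)) (c c' : ℕ),
      (∀ x ∈ fs, Nat.Coprime x.1 13) ∧ ¬ 13 ∣ c' ∧
      wordL 13 (2 * j + 1) m fs = c :: (List.replicate (2 * j - 1) 0 ++ [c']) := by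
  intro j h1 h2
  obtain rfl | rfl | rfl | rfl | rfl : j = 1 ∨ j = 2 ∨ j = 3 ∨ j = 4 ∨ j = 5 := by omega
  · exact ⟨2, [(9, 1)], 2, 4, by decide, by decide, by decide⟩
  · exact ⟨1, [(4, 1), (7, 1)], 4, 11, by decide, by decide, by decide⟩
  · exact ⟨0, [(1, 1), (3, 1), (9, 1)], 8, 9, by decide, by decide, by decide⟩
  · exact ⟨0, [(1, 1), (2, 4), (3, 4), (5, 1)], 10, 7, by decide, by decide, by decide +kernel⟩
  · exact ⟨0, [(2, 2), (3, 1), (4, 10), (5, 3), (7, 6)], 10, 4,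
      by decide, by decide, by decide +kernel⟩

/-- **Kummer's lemma** for `p ∈ {5, 7, 11, 13}`. -/
theorem kummer_lemma {p : ℕ} [hp : Fact p.Prime] (h : p = 5 ∨ p = 7 ∨ p = 11 ∨ p = 13)
    {K : Type*} [Field K] [NumberField K] [IsCyclotomicExtension {p} ℚ K]
    (u : (𝓞 K)ˣ) (hu : ∃ n : ℤ, (p : 𝓞 K) ∣ (u : 𝓞 K) - n) : ∃ v : (𝓞 K)ˣ, u = v ^ p := by
  haveI : NeZero p := ⟨hp.out.ne_zero⟩
  have hζ := IsCyclotomicExtension.zeta_spec p ℚ K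
  refine kummer_of_words hζ (by omega) ?_ u hu
  rcases h with rfl | rfl | rfl | rfl
  · exact levels_five
  · exact levels_seven
  · exact levels_eleven
  · exact levels_thirteen

end Fermat.Agent.Cyclo
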