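import Fermat.Agent.Cyclo.Certs

set_option autoImplicit false

namespace Fermat.Agent.Cyclo

open NumberField Polynomial Ideal RingOfIntegers NumberField.Ideal InfinitePlace Module
open scoped Nat Real

/-- A bound for the Minkowski constant. -/
lemma minkowski_floor_le (p : ℕ) [hp : Fact p.Prime] (K : Type*) [Field K]
    [NumberField K] [IsCyclotomicExtension {p} ℚ K] (n m B : ℕ) (hn : p = n + 1) (hm : n = 2 * m)
    (hB : ((n ! : ℕ) : ℝ) ^ 2 * 4 ^ n * (p : ℝ) ^ (p - 2) < (B + 1) ^ 2 * (n : ℝ) ^ (2 * n) * (3.1415 : ℝ) ^ n) :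
    ⌊(4 / π) ^ nrComplexPlaces K *
      ((finrank ℚ K)! / (finrank ℚ K) ^ (finrank ℚ K) * √|discr K|)⌋₊ ≤ B := by
  have hfr : finrank ℚ K = n := by
    rw [IsCyclotomicExtension.finrank (n := p) K (cyclotomic.irreducible_rat hp.out.pos),
      Nat.totient_prime hp.out, hn]; rfl
  have hcp : nrComplexPlaces K = m := by
    rw [IsCyclotomicExtension.Rat.nrComplexPlaces_eq_totient_div_two p, Nat.totient_prime hp.out,
      hn, hm]
    omega
  have hn0 : 0 < n := by have := hp.out.two_le; omega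
  have hdisc : (|discr K| : ℤ) = (p : ℤ) ^ (p - 2) := by
    rw [IsCyclotomicExtension.Rat.discr_prime p K, abs_mul, abs_pow, abs_neg, abs_one, one_pow,
      one_mul, abs_of_nonneg (by positivity)]
  have hdisc' : |((discr K : ℤ) : ℝ)| = (p : ℝ) ^ (p - 2) := by
    rw [← Int.cast_abs, hdisc]; push_cast; rfl
  rw [hfr, hcp, hdisc']
  apply Nat.le_of_lt_succ
  rw [Nat.floor_lt (by positivity)]
  apply lt_of_pow_lt_pow_left₀ 2 (by positivity)
  have hpi : (3.1415 : ℝ) < π := Real.pi_gt_d4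
  have hnR : (0 : ℝ) < n := by exact_mod_cast hn0
  rw [mul_pow, mul_pow, Real.sq_sqrt (by positivity), ← pow_mul, mul_comm m 2, ← hm, div_pow,
    div_pow, ← pow_mul, mul_comm n 2, div_mul_eq_mul_div (((n ! : ℕ) : ℝ) ^ 2), div_mul_div_comm,
    div_lt_iff₀ (by positivity)]
  push_cast
  calc (4 : ℝ) ^ n * (((n ! : ℕ) : ℝ) ^ 2 * (p : ℝ) ^ (p - 2))
      = ((n ! : ℕ) : ℝ) ^ 2 * 4 ^ n * (p : ℝ) ^ (p - 2) := by ring
    _ < (B + 1) ^ 2 * (n : ℝ) ^ (2 * n) * (3.1415 : ℝ) ^ n := hB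
    _ ≤ (B + 1) ^ 2 * (n : ℝ) ^ (2 * n) * π ^ n := by gcongr
    _ = (B + 1) ^ 2 * (π ^ n * (n : ℝ) ^ (2 * n)) := by ring


/-- Every prime not above `p` whose residue degree is large does not matter: uniform criterion. -/
theorem pid_of_cert (p : ℕ) [hp : Fact p.Prime] (K : Type*) [Field K]
    [NumberField K] [IsCyclotomicExtension {p} ℚ K] (B : ℕ)
    (hB : ⌊(4 / π) ^ nrComplexPlaces K *
      ((finrank ℚ K)! / (finrank ℚ K) ^ (finrank ℚ K) * √|discr K|)⌋₊ ≤ B)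
    (h : ∀ q : ℕ, q.Prime → q ≤ B → q ≠ p →
      (∃ P ∈ primesOver (span {(q : ℤ)}) (𝓞 K), Submodule.IsPrincipal P) ∨
      B < q ^ orderOf (q : ZMod p)) : IsPrincipalIdealRing (𝓞 K) := by
  have : IsGalois ℚ K := IsCyclotomicExtension.isGalois {p} ℚ K
  apply RingOfIntegers.isPrincipalIdealRing_of_isPrincipal_of_lt_or_isPrincipal_of_mem_primesOver_of_mem_Icc
  intro q hq hqp
  have hqB : q ≤ B := (Finset.mem_Icc.1 hq).2.trans hB
  have : Fact q.Prime := ⟨hqp⟩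
  have : NeZero p := ⟨hp.out.ne_zero⟩
  by_cases hqp' : q = p
  · subst hqp'
    have hζ := IsCyclotomicExtension.zeta_spec q ℚ K
    obtain ⟨⟨P, hP⟩⟩ := (span {(q : ℤ)}).nonempty_primesOver (S := 𝓞 K)
    have h1 := hP.1
    have h2 := hP.2
    refine ⟨P, hP, Or.inr ?_⟩
    rw [IsCyclotomicExtension.Rat.eq_span_zeta_sub_one_of_liesOver' q K hζ P]
    exact ⟨⟨_, rfl⟩⟩
  · rcases h q hqp hqB hqp' with ⟨P, hP, hprin⟩ | hlt
    · exact ⟨P, hP, Or.inr hprin⟩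
    · obtain ⟨⟨P, hP⟩⟩ := (span {(q : ℤ)}).nonempty_primesOver (S := 𝓞 K)
      refine ⟨P, hP, Or.inl (hB.trans_lt ?_)⟩
      have := hP.1
      have := hP.2
      rwa [IsCyclotomicExtension.Rat.inertiaDeg_eq_of_not_dvd q K P
        (m := p) (fun hd => hqp' ((Nat.prime_dvd_prime_iff_eq hqp hp.out).1 hd))]

end Fermat.Agent.Cyclo
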