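import Mathlib.NumberTheory.NumberField.Cyclotomic.PID
import Mathlib.NumberTheory.NumberField.Cyclotomic.Ideal
import Mathlib.Tactic

set_option autoImplicit false

/-! Helper lemmas for class number one of `ℤ[ζ_p]`, `p = 7, 11, 13`. -/

namespace Fermat.Agent.Cyclo

open NumberField Polynomial Ideal RingOfIntegers NumberField.Ideal

variable {p : ℕ} [hp : Fact p.Prime] (K : Type*) [Field K] [NumberField K]
  [IsCyclotomicExtension {p} ℚ K]

/-- the chosen primitive root of unity in the ring of integers -/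
noncomputable def theta (p : ℕ) [hp : Fact p.Prime] (K : Type*) [Field K] [NumberField K]
    [IsCyclotomicExtension {p} ℚ K] : 𝓞 K :=
  have : NeZero p := ⟨hp.out.ne_zero⟩
  (IsCyclotomicExtension.zeta_spec p ℚ K).toInteger

lemma theta_prim : IsPrimitiveRoot (theta p K) p :=
  have : NeZero p := ⟨hp.out.ne_zero⟩
  (IsCyclotomicExtension.zeta_spec p ℚ K).toInteger_isPrimitiveRoot

lemma theta_geom : ∑ i ∈ Finset.range p, (theta p K) ^ i = 0 :=
  (theta_prim K).geom_sum_eq_zero hp.out.one_lt

lemma minpoly_theta : minpoly ℤ (theta p K) = cyclotomic p ℤ := by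
  have : NeZero p := ⟨hp.out.ne_zero⟩
  rw [cyclotomic_eq_minpoly (IsCyclotomicExtension.zeta_spec p ℚ K) hp.out.pos,
    ← RingOfIntegers.minpoly_coe]
  rfl

lemma exponent_theta : exponent (theta p K) = 1 := by
  have : NeZero p := ⟨hp.out.ne_zero⟩
  exact exponent_eq_one_iff.mpr
    (IsCyclotomicExtension.Rat.adjoin_singleton_eq_top (IsCyclotomicExtension.zeta_spec p ℚ K))

/-- Certificate for a principal prime above `q`. -/
theorem exists_principal_of_cert (q : ℕ) [hq : Fact q.Prime] (Q : ℤ[X]) (hmonic : Q.Monic)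
    (hirr : Irreducible (Q.map (Int.castRingHom (ZMod q))))
    (hdvd : Q.map (Int.castRingHom (ZMod q)) ∣ (cyclotomic p ℤ).map (Int.castRingHom (ZMod q)))
    (x y z w v : 𝓞 K) (hxy : x * y = (q : 𝓞 K)) (hxz : x * z = aeval (theta p K) Q)
    (hx : x = (q : 𝓞 K) * w + aeval (theta p K) Q * v) :
    ∃ P ∈ primesOver (span {(q : ℤ)}) (𝓞 K), Submodule.IsPrincipal P := by
  have hexp : ¬ q ∣ exponent (theta p K) := by
    rw [exponent_theta]; exact hq.out.not_dvd_one
  have hmem : Q.map (Int.castRingHom (ZMod q)) ∈ monicFactorsMod (theta p K) q := by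
    rw [Multiset.mem_toFinset, minpoly_theta, Polynomial.mem_normalizedFactors_iff]
    · exact ⟨hirr, hmonic.map _, hdvd⟩
    · exact map_monic_ne_zero (cyclotomic.monic p ℤ)
  have heq := primesOverSpanEquivMonicFactorsMod_symm_apply_eq_span hexp hmem
  refine ⟨_, ((primesOverSpanEquivMonicFactorsMod hexp).symm ⟨_, hmem⟩).2, ?_⟩
  rw [heq]
  have : span {(q : 𝓞 K), aeval (theta p K) Q} = span {x} := by
    apply le_antisymm
    · rw [span_le]
      intro t ht
      rcases ht with rfl | ht
      · exact mem_span_singleton.2 ⟨y, hxy.symm⟩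
      · rw [Set.mem_singleton_iff] at ht
        rw [ht]
        exact mem_span_singleton.2 ⟨z, hxz.symm⟩
    · rw [span_singleton_le_iff_mem, hx]
      apply add_mem
      · exact mul_mem_right _ _ (subset_span (by simp))
      · exact mul_mem_right _ _ (subset_span (by simp))
  rw [this]
  exact ⟨⟨x, rfl⟩⟩

/-- Certificate for a principal prime above `q` of degree one. -/
theorem exists_principal_of_cert_linear (q : ℕ) [hq : Fact q.Prime] (g : ℤ)
    (hg : ((eval g (cyclotomic p ℤ) : ℤ) : ZMod q) = 0)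
    (x y z w v : 𝓞 K) (hxy : x * y = (q : 𝓞 K)) (hxz : x * z = theta p K - (g : 𝓞 K))
    (hx : x = (q : 𝓞 K) * w + (theta p K - (g : 𝓞 K)) * v) :
    ∃ P ∈ primesOver (span {(q : ℤ)}) (𝓞 K), Submodule.IsPrincipal P := by
  have hmap : (X - C g : ℤ[X]).map (Int.castRingHom (ZMod q)) = X - C (g : ZMod q) := by
    simp
  have hae : aeval (theta p K) (X - C g : ℤ[X]) = theta p K - (g : 𝓞 K) := by simp
  refine exists_principal_of_cert K q (X - C g) (monic_X_sub_C g) ?_ ?_ x y z w v hxy
    (by rw [hae]; exact hxz) (by rw [hae]; exact hx)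
  · rw [hmap]; exact irreducible_X_sub_C _
  · rw [hmap, dvd_iff_isRoot, IsRoot, eval_intCast_map]
    simpa using hg

end Fermat.Agent.Cyclo
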